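import Fermat.Agent.S40.BLX.Main
import Fermat.Agent.S36.Inst.C3b

/-!
# S40, block (BL_X): the two branches at level `q * M` as `DVal`s, (BL_X) in the `Bd` shape
-/

set_option autoImplicit false
set_option synthInstance.maxHeartbeats 400000
set_option linter.unusedSectionVars false
set_option linter.unusedVariables false

open AlgebraicCurve ModularCurve Polynomial CongruenceSubgroup
open scoped IntermediateField

namespace Fermat.Agent.S40Lib

open Fermat.Agent.S18Lib Fermat.Agent.S24Lib Fermat.Agent.S28Lib Fermat.Agent.ESLib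
  Fermat.Agent.S34Lib Fermat.Agent.FFLib Fermat.Agent.S36Lib

noncomputable section

variable {M q : ℕ} [NeZero M] [NeZero q] [hqF : Fact q.Prime] (hqM : ¬ q ∣ M)
variable {w : FB (q * M) ≃ₐ[Qb] FB (q * M)}
variable (A : ValuationSubring Qb) (hA : A.LiesOverPrime q)

include hqM hA in
/-- the residue field of the branch at `∞` is `FT A M` -/
theorem gRed_mem_FT_inf2 (x : FB (q * M)) (hfix : IsFix A (q * M) x)
    (hx : (x : LaurentSeries Qb) ∈ gRing A) : gRed A ⟨_, hx⟩ ∈ FT A M := by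
  obtain ⟨w₂, ζ, i, ζ₂, B⟩ := exists_brData (M := M) (q := q) hqM
  have h1 : ((upQ M q x : FB (q ^ 2 * M)) : LaurentSeries Qb) ∈ gRing A := by
    rw [coe_upQ]
    exact hx
  have h2 := gRed_mem_FT_inf hqM A hA B (upQ M q x) (hfix.aHom _) h1
  have h3 : (⟨_, h1⟩ : gRing A) = ⟨_, hx⟩ := Subtype.ext (coe_upQ x)
  rwa [h3] at h2

include hqM hA in
/-- the residue field of the branch at `0` is `FT A M` -/
theorem gRed_mem_FT_zero2 (hw : IsAL (q * M) q M w) (x : FB (q * M)) (hfix : IsFix A (q * M) x)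
    (hx : ((w x : FB (q * M)) : LaurentSeries Qb) ∈ gRing A) : gRed A ⟨_, hx⟩ ∈ FT A M :=
  gRed_mem_FT_inf2 hqM A hA (w x) (hfix.al hw) hx

include hqM hA in
theorem isBrK2_inf : IsBrK A (q * M) M (eInf (q * M)) (qF0 A (q * M) q) :=
  isBrK_of A M (ϖ := qF0 A (q * M) q) (isBranch_inf A hqF.out hA (q * M))
    (fun x h => gRed_mem_FT_inf2 hqM A hA (x : FB (q * M)) (mem_F0.1 x.2) h)

include hqM hA in
theorem isBrK2_zero (hw : IsAL (q * M) q M w) :
    IsBrK A (q * M) M (eZero w) (qF0 A (q * M) q) :=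
  isBrK_of A M (ϖ := qF0 A (q * M) q) (isBranch_zero A hqF.out hA rfl hw)
    (fun x h => gRed_mem_FT_zero2 hqM A hA hw (x : FB (q * M)) (mem_F0.1 x.2) h)

/-- the two valuations -/
def vInf2 : DVal (F0 A (q * M)) (FT A M) := mkDVal (isBrK2_inf hqM A hA)
def vZero2 (hw : IsAL (q * M) q M w) : DVal (F0 A (q * M)) (FT A M) :=
  mkDVal (isBrK2_zero hqM A hA hw)

theorem vInf2_ge_iff (n : ℕ) (g : F0 A (q * M)) :
    (vInf2 hqM A hA).ge n g ↔ Ge A (eInf (q * M)) (qF (q * M) q) n (g : FB (q * M)) :=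
  C3b_ge_iff A (isBrK2_inf hqM A hA) n g

theorem vZero2_ge_iff (hw : IsAL (q * M) q M w) (n : ℕ) (g : F0 A (q * M)) :
    (vZero2 hqM A hA hw).ge n g ↔ Ge A (eZero w) (qF (q * M) q) n (g : FB (q * M)) :=
  C3b_ge_iff A (isBrK2_zero hqM A hA hw) n g

theorem coe_vInf2_lead (n : ℕ) (g : F0 A (q * M)) :
    (((vInf2 hqM A hA).lead n g : FT A M) : LaurentSeries (kk A)) =
      rd A (eInf (q * M)) (qF (q * M) q) n (g : FB (q * M)) :=
  C3b_lead_eq A (isBrK2_inf hqM A hA) n g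

theorem coe_vZero2_lead (hw : IsAL (q * M) q M w) (n : ℕ) (g : F0 A (q * M)) :
    (((vZero2 hqM A hA hw).lead n g : FT A M) : LaurentSeries (kk A)) =
      rd A (eZero w) (qF (q * M) q) n (g : FB (q * M)) :=
  C3b_lead_eq A (isBrK2_zero hqM A hA hw) n g

/-- `j ∈ F₀` at level `q * M` -/
def xF02 (A : ValuationSubring Qb) (M q : ℕ) [NeZero M] [NeZero q] : F0 A (q * M) :=
  JF0 A (q * M) 1 (one_dvd _)

theorem BLX_hyp (hw : IsAL (q * M) q M w) (a α β : ℕ) (g : F0 A (q * M))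
    (hg : iotaF0 A _ g ∈ riemannRochSpace (maE Qb (iotaF0 A _ (xF02 A M q)) a 0))
    (h1 : (vInf2 hqM A hA).ge α g) (h3 : (vZero2 hqM A hA hw).ge β g) :
    BLHyp2 A w a (α : ℤ) (β : ℤ) (g : FB (q * M)) where
  fix := g.2
  memL := by
    rw [maE, zero_smul, add_zero] at hg
    exact hg
  inf := (vInf2_ge_iff hqM A hA α g).1 h1
  zero := (vZero2_ge_iff hqM A hA hw β g).1 h3

/-- (BL_X), `Bd` shape, branch at `∞` -/
theorem c2_bl₁ (hw : IsAL (q * M) q M w) (H : FT A M)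
    (hH : (H : LaurentSeries (kk A)) = (phiL (kk A) q)⁻¹) (a α β : ℕ) (g : F0 A (q * M))
    (hg : iotaF0 A _ g ∈ riemannRochSpace (maE Qb (iotaF0 A _ (xF02 A M q)) a 0))
    (h1 : (vInf2 hqM A hA).ge α g) (h3 : (vZero2 hqM A hA hw).ge β g) :
    Bd (kk A) (jT A M) a 0 12 (((β : ℤ) - α) • ZZ3 A H) ((vInf2 hqM A hA).lead α g) := by
  have := isAlgClosed_kk A
  set u := (vInf2 hqM A hA).lead α g with hu
  by_cases hu0 : u = 0
  · exact Or.inl hu0
  refine Or.inr fun P => ?_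
  have key := bl2_inf hqM A hA hw H hH (BLX_hyp hqM A hA hw a α β g hg h1 h3) u
    (coe_vInf2_lead hqM A hA α g) P
  rw [Finsupp.smul_apply, ZZ3_apply, maE_apply (isFF_FT A M), smul_eq_mul]
  rcases lt_or_ge (P.ord (jT A M)) 0 with hP | hP
  · have h4 := ord_H_of_neg A M q hA H hH P hP
    have h5 : P.ord H ≤ 0 := by
      rw [h4]
      exact mul_nonpos_of_nonneg_of_nonpos (BL_q1_pos (q := q)).le hP.le
    rcases key.2 hP with h6 | h6
    · exact absurd h6 hu0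
    rw [max_eq_right h5, max_eq_left (by omega : (0 : ℤ) ≤ -P.ord (jT A M))]
    push_cast
    linarith
  · have h5 := ord_H_nonneg A M q hA H hH P hP
    rcases key.1 hP with h6 | h6
    · exact absurd h6 (pow_ne_zero _ hu0)
    rw [pl_ord_pow] at h6
    rw [max_eq_left h5, max_eq_right (by omega : -P.ord (jT A M) ≤ 0)]
    push_cast at h6 ⊢
    linarith

/-- (BL_X), `Bd` shape, branch at `0` -/
theorem c2_bl₃ (hw : IsAL (q * M) q M w) (H : FT A M)
    (hH : (H : LaurentSeries (kk A)) = (phiL (kk A) q)⁻¹) (a α β : ℕ) (g : F0 A (q * M))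
    (hg : iotaF0 A _ g ∈ riemannRochSpace (maE Qb (iotaF0 A _ (xF02 A M q)) a 0))
    (h1 : (vInf2 hqM A hA).ge α g) (h3 : (vZero2 hqM A hA hw).ge β g) :
    Bd (kk A) (jT A M ^ q) a 0 12 (((α : ℤ) - β) • ZZ3 A H)
      ((vZero2 hqM A hA hw).lead β g) := by
  have := isAlgClosed_kk A
  set u := (vZero2 hqM A hA hw).lead β g with hu
  by_cases hu0 : u = 0
  · exact Or.inl hu0
  refine Or.inr fun P => ?_
  have key := bl2_zero hqM A hA hw H hH (BLX_hyp hqM A hA hw a α β g hg h1 h3) u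
    (coe_vZero2_lead hqM A hA hw β g) P
  rw [Finsupp.smul_apply, ZZ3_apply, maE_apply (isFF_FT A M), smul_eq_mul, pl_ord_pow]
  have hq2 : (0 : ℤ) < (q : ℤ) := by exact_mod_cast hqF.out.pos
  rcases lt_or_ge (P.ord (jT A M)) 0 with hP | hP
  · have h4 := ord_H_of_neg A M q hA H hH P hP
    have h5 : P.ord H ≤ 0 := by
      rw [h4]
      exact mul_nonpos_of_nonneg_of_nonpos (BL_q1_pos (q := q)).le hP.le
    rcases key.2 hP with h6 | h6
    · exact absurd h6 hu0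
    have h7 : (q : ℤ) * P.ord (jT A M) ≤ 0 := mul_nonpos_of_nonneg_of_nonpos hq2.le hP.le
    rw [max_eq_right h5, max_eq_left (by omega : (0 : ℤ) ≤ -((q : ℤ) * P.ord (jT A M)))]
    push_cast at h6 ⊢
    linarith
  · have h5 := ord_H_nonneg A M q hA H hH P hP
    rcases key.1 hP with h6 | h6
    · exact absurd h6 (pow_ne_zero _ hu0)
    rw [pl_ord_pow] at h6
    have h7 : 0 ≤ (q : ℤ) * P.ord (jT A M) := mul_nonneg hq2.le hP
    rw [max_eq_left h5, max_eq_right (by omega : -((q : ℤ) * P.ord (jT A M)) ≤ 0)]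
    push_cast at h6 ⊢
    linarith

theorem BLX_red_of_eq {N : ℕ} {e : FB N →+* LaurentSeries Qb} {ϖ : F0 A N}
    (h : IsBrK A N M e ϖ) (x : F0 A N) (y : LaurentSeries A)
    (hy : e (x : FB N) = cE A y) (u : FT A M)
    (hu : (u : LaurentSeries (kk A)) = cR A y) :
    ∃ hx : x ∈ (mkDVal h).O, (mkDVal h).red ⟨_, hx⟩ = u := by
  have hx : x ∈ (mkDVal h).O := by
    show e (x : FB N) ∈ gRing A
    rw [hy]
    exact cE_mem_gRing A y
  refine ⟨hx, Subtype.ext ?_⟩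
  rw [coe_mkDVal_red, hu, ← gRed_cE]
  congr 1
  exact Subtype.ext hy

/-- `j` on the two branches -/
theorem c2_hx₁ : ∃ h : xF02 A M q ∈ (vInf2 hqM A hA).O,
    (vInf2 hqM A hA).red ⟨_, h⟩ = jT A M :=
  BLX_red_of_eq A (isBrK2_inf hqM A hA) (xF02 A M q) (jqModC A) (C3a_J_one A) (jT A M)
    (C3a_coe_jT A)

theorem c2_hx₃ (hw : IsAL (q * M) q M w) : ∃ h : xF02 A M q ∈ (vZero2 hqM A hA hw).O,
    (vZero2 hqM A hA hw).red ⟨_, h⟩ = jT A M ^ q := by
  have : CharP (kk A) q := Fermat.Agent.S18Lib.charP_kk A hA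
  refine BLX_red_of_eq A (isBrK2_zero hqM A hA hw) (xF02 A M q) (qExpand A q (jqModC A)) ?_
    (jT A M ^ q) ?_
  · rw [← Wq_J_eq_cE A q, eZero_apply]
    have h1 := congrArg (Subtype.val) (BLX_w_J1 hw)
    exact h1
  · rw [cR, coeffMap_qExpand'', coeffMap_jqModC, qExpand_jqModC_eq_pow q (kk A)]
    rfl

end

end Fermat.Agent.S40Lib
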