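import Fermat.Agent.S36.Mod.BrDefs

/-!
# S40, block (BL_X): the bounding lemma at level `q * M` (two branches).  Definitions.

Level `N = q * M`, `q ∤ M`, two branches `eInf (q * M)`, `eZero w` (`w = w_q`), both with
uniformizer `qF (q * M) q`.
-/

set_option autoImplicit false
set_option synthInstance.maxHeartbeats 400000
set_option linter.unusedSectionVars false

open AlgebraicCurve ModularCurve Polynomial

namespace Fermat.Agent.S40Lib

open Fermat.Agent.S18Lib Fermat.Agent.S24Lib Fermat.Agent.S28Lib Fermat.Agent.ESLib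
  Fermat.Agent.S34Lib Fermat.Agent.FFLib Fermat.Agent.S36Lib

noncomputable section

variable {M q : ℕ} [NeZero M] [NeZero q]

/-- the hypotheses of (BL) at level `q * M` -/
structure BLHyp2 (A : ValuationSubring Qb) (w : FB (q * M) ≃ₐ[Qb] FB (q * M)) (n : ℕ) (α β : ℤ)
    (g : FB (q * M)) : Prop where
  fix : IsFix A (q * M) g
  memL : g ∈ riemannRochSpace (n • poleDiv Qb (JF (q * M) 1 (one_dvd _)))
  inf : Ge A (eInf (q * M)) (qF (q * M) q) α g
  zero : Ge A (eZero w) (qF (q * M) q) β g

theorem dvdQ (M q : ℕ) : q * M ∣ q ^ 2 * M := ⟨q, by ring⟩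

/-- the inclusion `FB (q M) → FB (q² M)` -/
def upQ (M q : ℕ) [NeZero M] [NeZero q] : FB (q * M) →ₐ[Qb] FB (q ^ 2 * M) := aHom (dvdQ M q)

end

end Fermat.Agent.S40Lib
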