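import Fermat.Agent.S40.BLX.Defs
import Fermat.Agent.S36.Mod.BL
import Fermat.Agent.S36.Mod.Tau
import Fermat.Agent.S36.Inst.BranchGen
import Fermat.Agent.S36.ALCompat

/-!
# S40, block (BL_X): the bounding lemma at level `q * M`, by pull back to level `q² M`
-/

set_option autoImplicit false
set_option synthInstance.maxHeartbeats 400000
set_option linter.unusedSectionVars false
set_option linter.unusedVariables false

open AlgebraicCurve ModularCurve Polynomial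
open scoped IntermediateField

namespace Fermat.Agent.S40Lib

open Fermat.Agent.S18Lib Fermat.Agent.S24Lib Fermat.Agent.S28Lib Fermat.Agent.ESLib
  Fermat.Agent.S34Lib Fermat.Agent.FFLib Fermat.Agent.S36Lib

noncomputable section

variable {M q : ℕ} [NeZero M] [NeZero q] [hqF : Fact q.Prime] (hqM : ¬ q ∣ M)
variable {w : FB (q * M) ≃ₐ[Qb] FB (q * M)}
variable {w₂ : FB (q ^ 2 * M) ≃ₐ[Qb] FB (q ^ 2 * M)} {ζ : Qbˣ}
  {i : ℕ → FB (q ^ 2 * M) →ₐ[Qb] LaurentSeries Qb} {ζ₂ : Qbˣ}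
variable (A : ValuationSubring Qb) (hA : A.LiesOverPrime q)

/-! ## pull back to level `q² M` -/

theorem coe_upQ (x : FB (q * M)) :
    ((upQ M q x : FB (q ^ 2 * M)) : LaurentSeries Qb) = (x : LaurentSeries Qb) := coe_aHom _ x

theorem upQ_qF : upQ M q (qF (q * M) q) = qF (q ^ 2 * M) q := (upQ M q).commutes _

theorem upQ_JF_one : upQ M q (JF (q * M) 1 (one_dvd _)) = JF (q ^ 2 * M) 1 (one_dvd _) :=
  Subtype.ext (coe_upQ _)

theorem upQ_shift (a : ℤ) (g : FB (q * M)) :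
    qF (q ^ 2 * M) q ^ a * upQ M q g = upQ M q (qF (q * M) q ^ a * g) := by
  rw [map_mul, map_zpow₀, upQ_qF]

theorem eInf_upQ (x : FB (q * M)) : eInf (q ^ 2 * M) (upQ M q x) = eInf (q * M) x := coe_upQ x

theorem mid_upQ (B : BrData M q w₂ ζ i ζ₂) (x : FB (q * M)) :
    i 1 (upQ M q x) = eInf (q * M) x := by
  have h11 : ¬ q ∣ 1 := fun h => hqF.out.one_lt.ne' (Nat.dvd_one.1 h)
  exact (B.mid 1 h11).apply_of_mem (x : LaurentSeries Qb) x.2 _

theorem BLX_al (B : BrData M q w₂ ζ i ζ₂) : IsAL (q ^ 2 * M) (q * q) M w₂ := by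
  have e2 : q * q = q ^ 2 := (sq q).symm
  refine ⟨fun d e hd he h => ?_, B.al.invol, B.al.gal⟩
  rw [e2] at hd ⊢
  exact B.al.gen d e hd he h

theorem eZero_upQ (hw : IsAL (q * M) q M w) (B : BrData M q w₂ ζ i ζ₂) (x : FB (q * M)) :
    eZero w₂ (upQ M q x) = qExpand Qb q (eZero w x) := by
  have h := IsAL.swap' (N' := q * M) (N := q ^ 2 * M) (Q := q) (q := q) (M := M) rfl (by ring)
    (dvdQ M q) (dvd_of_eq (by ring)) hw (BLX_al B) x
  rw [eZero_apply, eZero_apply]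
  have h2 : w₂ (upQ M q x) = _ := h
  rw [h2, coe_bHom]

theorem ge_inf_upQ (α : ℤ) (g : FB (q * M)) :
    Ge A (eInf (q ^ 2 * M)) (qF (q ^ 2 * M) q) α (upQ M q g) ↔
      Ge A (eInf (q * M)) (qF (q * M) q) α g := by
  unfold Ge
  rw [upQ_shift, eInf_upQ]

theorem rd_inf_upQ (α : ℤ) (g : FB (q * M)) :
    rd A (eInf (q ^ 2 * M)) (qF (q ^ 2 * M) q) α (upQ M q g) =
      rd A (eInf (q * M)) (qF (q * M) q) α g := by
  by_cases h : Ge A (eInf (q * M)) (qF (q * M) q) α g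
  · rw [rd_of_ge h]
    exact API_rd_eq h (by rw [upQ_shift, eInf_upQ])
  · rw [rd_of_not_ge h, rd_of_not_ge (fun h' => h ((ge_inf_upQ A α g).1 h'))]

theorem ge_zero_upQ (hw : IsAL (q * M) q M w) (B : BrData M q w₂ ζ i ζ₂) {β : ℤ} {g : FB (q * M)}
    (h : Ge A (eZero w) (qF (q * M) q) β g) :
    Ge A (eZero w₂) (qF (q ^ 2 * M) q) β (upQ M q g) := by
  unfold Ge at h ⊢
  rw [upQ_shift, eZero_upQ hw B]
  exact qExpand_mem_gRing A q h

include hA in
theorem ge_mid_upQ (B : BrData M q w₂ ζ i ζ₂) {α : ℤ} {g : FB (q * M)}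
    (h : Ge A (eInf (q * M)) (qF (q * M) q) α g) :
    Ge A (i 1 : FB (q ^ 2 * M) →+* LaurentSeries Qb) (piF M q) (((q : ℤ) - 1) * α)
      (upQ M q g) := by
  have hpi : piF M q ≠ 0 := BL_piF_ne_zero A hA B
  have hq0 : qF (q ^ 2 * M) q ≠ 0 := BL_qF_ne_zero _ _
  have hU := (isGU_mid_q A hA B).zpow α
  have hc : ((q - 1 : ℕ) : ℤ) = (q : ℤ) - 1 := by
    rw [Nat.cast_sub hqF.out.pos]
    simp
  have key : piF M q ^ (-(((q : ℤ) - 1) * α)) * upQ M q g =
      (qF (q ^ 2 * M) q * ((piF M q) ^ (q - 1))⁻¹) ^ α * upQ M q (qF (q * M) q ^ (-α) * g) := by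
    rw [← upQ_shift, mul_zpow, inv_zpow, ← zpow_natCast (piF M q) (q - 1), hc, ← zpow_mul,
      ← zpow_neg, zpow_neg (qF (q ^ 2 * M) q) α]
    field_simp
  show i 1 (piF M q ^ (-(((q : ℤ) - 1) * α)) * upQ M q g) ∈ gRing A
  rw [key, map_mul, map_zpow₀, mid_upQ B]
  exact (gRing A).mul_mem hU.1 h

include hA in
theorem BLHyp2.up (hw : IsAL (q * M) q M w) (B : BrData M q w₂ ζ i ζ₂) {n : ℕ} {α β : ℤ}
    {g : FB (q * M)} (hg : BLHyp2 A w n α β g) :
    BLHyp A w₂ i n α (((q : ℤ) - 1) * α) β (upQ M q g) where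
  fix := hg.fix.aHom _
  memL := by
    have h1 := EL_map_mem_L (upQ M q) _ g n hg.memL
    rwa [upQ_JF_one] at h1
  inf := (ge_inf_upQ A α g).2 hg.inf
  mid := ge_mid_upQ A hA B hg.inf
  zero := ge_zero_upQ A hw B hg.zero

/-! ## the branch at `∞` -/

include hqM hA in
/-- **(BL_X)** on the branch at `∞` -/
theorem bl2_inf (hw : IsAL (q * M) q M w) (H : FT A M)
    (hH : (H : LaurentSeries (kk A)) = (phiL (kk A) q)⁻¹) {n : ℕ} {α β : ℤ}
    {g : FB (q * M)} (hg : BLHyp2 A w n α β g) (u : FT A M)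
    (hu : (u : LaurentSeries (kk A)) = rd A (eInf (q * M)) (qF (q * M) q) α g)
    (P : Place (kk A) (FT A M)) :
    (0 ≤ P.ord (jT A M) → D2_ge P ((β - α) * P.ord H) (u ^ 12)) ∧
    (P.ord (jT A M) < 0 → D2_ge P (n * P.ord (jT A M)) u) := by
  obtain ⟨w₂, ζ, i, ζ₂, B⟩ := exists_brData (M := M) (q := q) hqM
  have key := bl_inf hqM A hA B H hH (hg.up A hA hw B) u (by rw [hu, rd_inf_upQ]) P
  refine ⟨fun hP => ?_, key.2⟩
  have h1 := key.1 hP
  have h2 : ((q : ℤ) - 1) * α + β - q * α = β - α := by ring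
  rwa [h2] at h1

/-! ## the symmetry `w` -/

theorem BLX_w_qF (a : ℤ) (g : FB (q * M)) :
    w (qF (q * M) q ^ a * g) = qF (q * M) q ^ a * w g := by
  rw [map_mul, map_zpow₀, qF, w.commutes]

theorem BLX_w_J1 (hw : IsAL (q * M) q M w) :
    w (JF (q * M) 1 (one_dvd _)) = JF (q * M) q (dvd_mul_right _ _) := by
  apply Subtype.ext
  have h := ALC_gen hw (JF (q * M) 1 (one_dvd _)) 1 1 (one_dvd _) (one_dvd _)
    (by rw [mul_one]; rfl)
  rw [h, Nat.div_one, mul_one]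
  rfl

theorem ge_eInf_al2 (β : ℤ) (g : FB (q * M)) :
    Ge A (eInf (q * M)) (qF (q * M) q) β (w g) ↔ Ge A (eZero w) (qF (q * M) q) β g := by
  unfold Ge
  rw [eZero_apply, BLX_w_qF, eInf_apply]

theorem rd_eInf_al2 (β : ℤ) (g : FB (q * M)) :
    rd A (eInf (q * M)) (qF (q * M) q) β (w g) = rd A (eZero w) (qF (q * M) q) β g := by
  by_cases h : Ge A (eZero w) (qF (q * M) q) β g
  · have h' := (ge_eInf_al2 A β g).2 h
    rw [rd_of_ge h, rd_of_ge h']
    congr 1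
    apply Subtype.ext
    show eInf _ _ = eZero w _
    rw [eZero_apply, BLX_w_qF, eInf_apply]
  · have h' : ¬ Ge A (eInf (q * M)) (qF (q * M) q) β (w g) :=
      fun h' => h ((ge_eInf_al2 A β g).1 h')
    rw [rd_of_not_ge h, rd_of_not_ge h']

/-- the hypotheses of (BL_X) are symmetric under `w` -/
theorem BLHyp2.al (hw : IsAL (q * M) q M w) {n : ℕ} {α β : ℤ} {g : FB (q * M)}
    (hg : BLHyp2 A w n α β g) : BLHyp2 A w (n * q) β α (w g) where
  fix := hg.fix.al hw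
  memL := by
    have h1 := EL_map_mem_L (w : FB (q * M) →ₐ[Qb] FB (q * M)) _ g n hg.memL
    have h2 : (w : FB (q * M) →ₐ[Qb] FB (q * M)) (JF (q * M) 1 (one_dvd _)) =
        JF (q * M) q (dvd_mul_right _ _) := BLX_w_J1 hw
    rw [h2] at h1
    refine EL_mem_L_mono ?_ h1
    rw [mul_smul]
    exact smul_le_smul_of_nonneg_left (poleDiv_JF_le _ _ _) (Nat.zero_le n)
  inf := (ge_eInf_al2 A β g).2 hg.zero
  zero := by
    have h := hg.inf
    unfold Ge at h ⊢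
    rw [eZero_apply, BLX_w_qF, hw.invol]
    exact h

include hqM hA in
/-- **(BL_X)** on the branch at `0` -/
theorem bl2_zero (hw : IsAL (q * M) q M w) (H : FT A M)
    (hH : (H : LaurentSeries (kk A)) = (phiL (kk A) q)⁻¹) {n : ℕ} {α β : ℤ}
    {g : FB (q * M)} (hg : BLHyp2 A w n α β g) (u : FT A M)
    (hu : (u : LaurentSeries (kk A)) = rd A (eZero w) (qF (q * M) q) β g)
    (P : Place (kk A) (FT A M)) :
    (0 ≤ P.ord (jT A M) → D2_ge P ((α - β) * P.ord H) (u ^ 12)) ∧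
    (P.ord (jT A M) < 0 → D2_ge P (n * q * P.ord (jT A M)) u) := by
  have h := bl2_inf hqM A hA hw H hH (hg.al A hw) u (by rw [hu, rd_eInf_al2]) P
  refine ⟨h.1, fun hP => ?_⟩
  have := h.2 hP
  push_cast at this
  exact this

end

end Fermat.Agent.S40Lib
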