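import Fermat.Agent.S40.BLX.Branch
import Fermat.Agent.S36.Inst.C3c

/-!
# S40, block (BL_X): numerics at level `q * M` (degrees, genus)
-/

set_option autoImplicit false
set_option synthInstance.maxHeartbeats 400000
set_option linter.unusedSectionVars false
set_option linter.unusedVariables false

open AlgebraicCurve ModularCurve Polynomial CongruenceSubgroup
open scoped IntermediateField

namespace Fermat.Agent.S40Lib

open Fermat.Agent.S18Lib Fermat.Agent.S24Lib Fermat.Agent.S28Lib Fermat.Agent.ESLib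
  Fermat.Agent.S34Lib Fermat.Agent.FFLib Fermat.Agent.S36Lib

noncomputable section

variable {M q : ℕ} [NeZero M] [NeZero q] [hqF : Fact q.Prime] (hqM : ¬ q ∣ M)
variable (A : ValuationSubring Qb) (hA : A.LiesOverPrime q)

include hqM in
theorem BLX_idx : idx (q * M) = (q + 1) * idx M := by
  unfold idx
  rw [Fermat.Agent.S20Lib.index_Gamma0 (q * M),
    Fermat.Agent.S20Lib.dedekindPsi_mul_of_not_dvd (NeZero.ne M) hqF.out hqM,
    ← Fermat.Agent.S20Lib.index_Gamma0 M]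

include hqM hA in
/-- degrees: `deg (j̄)_∞ + deg (j̄^q)_∞ = deg (j)_∞` -/
theorem c2_deg_eq :
    (Module.finrank (kk A)⟮jT A M⟯ (FT A M) : ℤ) +
      Module.finrank (kk A)⟮jT A M ^ q⟯ (FT A M) =
    Module.finrank Qb⟮iotaF0 A _ (xF02 A M q)⟯ (FB (q * M)) := by
  have e1 : iotaF0 A _ (xF02 A M q) = jBar (q * M) := C3c_JF_one (q * M)
  have e2 : Module.finrank Qb⟮jBar (q * M)⟯ (FB (q * M)) = idx (q * M) :=
    finrank_eq_index (q * M)
  rw [e1, e2, BLX_idx hqM, finrank_jT_pow M A q hqF.out.pos, finrank_jT_eq hqM A hA]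
  push_cast
  ring

include hqM hA in
/-- genus: `12 (g(qM) - 1) ≤ 24 (g(κ) - 1) + (q - 1) ψ(M)` -/
theorem c2_genus (hbase : 2 ∣ M ∨ 3 ∣ M) {r : ℕ} (hr : r.Prime) (hr12 : r % 12 = 11)
    (hrM : r ∣ M) :
    12 * ((gS (q * M) : ℤ) - 1) ≤
      24 * ((genusR (kk A) (FT A M) : ℤ) - 1) + ((q - 1 : ℕ) : ℤ) * (idx M : ℤ) := by
  have hq1 : 1 ≤ q := hqF.out.one_lt.le
  have h1 := gS_prime_mul hqF.out hqM hr hr12 hrM
  have h2 := twelve_mul_ssCount (q := q) (NeZero.ne M) hr hr12 hrM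
  have h3 : dedekindPsi M = idx M := (Fermat.Agent.S20Lib.index_Gamma0 M).symm
  have h4 : (gS M : ℤ) ≤ (genusR (kk A) (FT A M) : ℤ) := by
    exact_mod_cast C3c_gS_le hqM A hA hbase
  have h5 : (12 : ℤ) * (ssCount q M : ℤ) = ((q : ℤ) - 1) * (idx M : ℤ) := by
    rw [h3] at h2
    have := congrArg (fun n : ℕ => (n : ℤ)) h2
    push_cast [hq1] at this
    exact this
  rw [h1]
  push_cast [hq1]
  linarith

include hqM hA in
/-- `deg Z = (q - 1) ψ(M)` (restated from S36) -/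
theorem c2_deg_Z (H : FT A M) (hH : (H : LaurentSeries (kk A)) = (phiL (kk A) q)⁻¹) :
    Divisor.degree (ZZ3 A H) = ((q - 1 : ℕ) : ℤ) * (idx M : ℤ) :=
  degree_ZZ3 hqM A hA H (EH_eq_aeval A M q hA H hH)

end

end Fermat.Agent.S40Lib
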