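import Fermat.Agent.S40.BLX.Branch
import Fermat.Agent.S36.New.LiftM
import Fermat.Agent.S36.Inst.RedG3
import Fermat.Agent.S36.Mod.ValV3
import Fermat.Agent.S36.Mod.EtaH

/-!
# S40, block (BL_X): the joint reduction datum over `K0 A` at level `q * M` (`RX0`)
-/

set_option autoImplicit false
set_option synthInstance.maxHeartbeats 400000
set_option linter.unusedSectionVars false
set_option linter.unusedVariables false

open AlgebraicCurve ModularCurve Polynomial CongruenceSubgroup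
open scoped IntermediateField

namespace Fermat.Agent.S40Lib

open Fermat.Agent.S18Lib Fermat.Agent.S24Lib Fermat.Agent.S28Lib Fermat.Agent.ESLib
  Fermat.Agent.S34Lib Fermat.Agent.FFLib Fermat.Agent.S36Lib

noncomputable section

variable {M q : ℕ} [NeZero M] [NeZero q] [hqF : Fact q.Prime] (hqM : ¬ q ∣ M)
variable {w : FB (q * M) ≃ₐ[Qb] FB (q * M)}
variable (A : ValuationSubring Qb) (hA : A.LiesOverPrime q)

/-- the semilocal ring `O₀ ⊆ F0 A (q * M)` -/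
def O2 (A : ValuationSubring Qb) (w : FB (q * M) ≃ₐ[Qb] FB (q * M)) : Subring (F0 A (q * M)) :=
  brO A _ (eInf (q * M)) ⊓ brO A _ (eZero w)

theorem mem_O2_iff (x : F0 A (q * M)) : x ∈ O2 A w ↔
    eInf (q * M) (x : FB (q * M)) ∈ gRing A ∧ eZero w (x : FB (q * M)) ∈ gRing A := by
  rw [O2, Subring.mem_inf]
  rfl

/-- the joint reduction map -/
def red2 (hw : IsAL (q * M) q M w) : O2 A w →+* FT A M × FT A M :=
  ((vInf2 hqM A hA).red.comp (Subring.inclusion (inf_le_left : O2 A w ≤ brO A _ (eInf (q * M))))).prod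
    ((vZero2 hqM A hA hw).red.comp
      (Subring.inclusion (inf_le_right : O2 A w ≤ brO A _ (eZero w))))

theorem coe_red2_fst (hw : IsAL (q * M) q M w) (x : O2 A w) :
    (((red2 hqM A hA hw x).1 : FT A M) : LaurentSeries (kk A)) =
      gRed A ⟨eInf (q * M) ((x : F0 A (q * M)) : FB (q * M)), ((mem_O2_iff A _).1 x.2).1⟩ := rfl

theorem coe_red2_snd (hw : IsAL (q * M) q M w) (x : O2 A w) :
    (((red2 hqM A hA hw x).2 : FT A M) : LaurentSeries (kk A)) =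
      gRed A ⟨eZero w ((x : F0 A (q * M)) : FB (q * M)), ((mem_O2_iff A _).1 x.2).2⟩ := rfl

theorem red2_eq_zero_iff (hw : IsAL (q * M) q M w) (x : O2 A w) :
    red2 hqM A hA hw x = 0 ↔ (x : F0 A (q * M)) * (qF0 A (q * M) q)⁻¹ ∈ O2 A w := by
  have h1 := (vInf2 hqM A hA).red_eq_zero_iff ⟨(x : F0 A (q * M)), x.2.1⟩
  have h2 := (vZero2 hqM A hA hw).red_eq_zero_iff ⟨(x : F0 A (q * M)), x.2.2⟩
  rw [Prod.ext_iff]
  exact (and_congr h1 h2).trans Subring.mem_inf.symm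

/-- the two branches on constants -/
theorem RX_const (w : FB (q * M) ≃ₐ[Qb] FB (q * M)) (c : Qb) :
    eInf (q * M) (algebraMap Qb (FB (q * M)) c) = HahnSeries.C c ∧
      eZero w (algebraMap Qb (FB (q * M)) c) = HahnSeries.C c := by
  refine ⟨?_, ?_⟩
  · rw [← PHI_algebraMap_eq_C]; rfl
  · rw [← PHI_algebraMap_eq_C, eZero_apply, AlgEquiv.commutes]; rfl

theorem const_mem_O2 (w : FB (q * M) ≃ₐ[Qb] FB (q * M)) (c : A0 A) :
    algebraMap (K0 A) (F0 A (q * M)) (c : K0 A) ∈ O2 A w := by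
  rw [mem_O2_iff, coe_algebraMap_F0]
  obtain ⟨h1, h2⟩ := RX_const w (((c : K0 A) : Qb))
  rw [h1, h2]
  have hc : ((c : K0 A) : Qb) ∈ A := c.2
  exact ⟨C_mem_gRing hc, C_mem_gRing hc⟩

theorem algebraMap_mem_O2_iff (w : FB (q * M) ≃ₐ[Qb] FB (q * M)) (a : K0 A) :
    algebraMap (K0 A) (F0 A (q * M)) a ∈ O2 A w ↔ a ∈ A0 A := by
  constructor
  · intro h
    have h1 := ((mem_O2_iff A _).mp h).1
    rw [coe_algebraMap_F0, (RX_const w (a : Qb)).1] at h1
    exact mem_of_C_mem_gRing h1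
  · intro h
    exact const_mem_O2 A w ⟨a, h⟩

/-- constants on a branch, any level -/
theorem RX_red_const {N : ℕ} {e : FB N →+* LaurentSeries Qb} {ϖ : F0 A N}
    (h : IsBrK A N M e ϖ) (he : ∀ c : Qb, e (algebraMap Qb (FB N) c) = HahnSeries.C c)
    (c : A0 A) (hc : algebraMap (K0 A) (F0 A N) (c : K0 A) ∈ (mkDVal h).O) :
    (mkDVal h).red ⟨_, hc⟩ = algebraMap (kk A) (FT A M) (resK0 A c) := by
  apply Subtype.ext
  rw [coe_mkDVal_red]
  have hcA : ((c : K0 A) : Qb) ∈ A := c.2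
  have h1 : e ((algebraMap (K0 A) (F0 A N) (c : K0 A) : F0 A N) : FB N) =
      HahnSeries.C ((c : K0 A) : Qb) := by
    rw [coe_algebraMap_F0, he]
  have h2 : ((algebraMap (kk A) (FT A M) (resK0 A c) : FT A M) : LaurentSeries (kk A)) =
      HahnSeries.C (resK0 A c) := by
    rw [← algebraMap_eq_C]
    rfl
  rw [h2, resK0_apply, ← gRed_C hcA]
  congr 1
  exact Subtype.ext h1

theorem red2_algebraMap (hw : IsAL (q * M) q M w) (a : A0 A)
    (h : algebraMap (K0 A) (F0 A (q * M)) (a : K0 A) ∈ O2 A w) :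
    red2 hqM A hA hw ⟨_, h⟩ = algebraMap (kk A) (FT A M × FT A M) (resK0 A a) := by
  refine Prod.ext ?_ ?_
  · exact RX_red_const A (isBrK2_inf hqM A hA) (fun c => (RX_const w c).1) a h.1
  · exact RX_red_const A (isBrK2_zero hqM A hA hw) (fun c => (RX_const w c).2) a h.2

theorem isUnit_of_red2 (hw : IsAL (q * M) q M w) (x : O2 A w)
    (hx : IsUnit (red2 hqM A hA hw x)) : IsUnit x := by
  rw [Prod.isUnit_iff] at hx
  obtain ⟨h1, h2⟩ := hx
  have g1 : IsGU A (eInf (q * M) ((x : F0 A (q * M)) : FB (q * M))) := by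
    refine ⟨((mem_O2_iff A _).1 x.2).1, fun h => h1.ne_zero (Subtype.ext ?_)⟩
    rw [coe_red2_fst, h]
    rfl
  have g2 : IsGU A (eZero w ((x : F0 A (q * M)) : FB (q * M))) := by
    refine ⟨((mem_O2_iff A _).1 x.2).2, fun h => h2.ne_zero (Subtype.ext ?_)⟩
    rw [coe_red2_snd, h]
    rfl
  have hx0 : (x : F0 A (q * M)) ≠ 0 := by
    intro h0
    have := g1.ne_zero
    rw [h0] at this
    exact this (map_zero _)
  have hinv : (x : F0 A (q * M))⁻¹ ∈ O2 A w := by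
    rw [mem_O2_iff]
    have e1 : (((x : F0 A (q * M))⁻¹ : F0 A (q * M)) : FB (q * M)) =
        ((x : F0 A (q * M)) : FB (q * M))⁻¹ := rfl
    rw [e1, map_inv₀, map_inv₀]
    exact ⟨g1.inv.1, g2.inv.1⟩
  rw [isUnit_iff_exists_inv]
  exact ⟨⟨_, hinv⟩, Subtype.ext (mul_inv_cancel₀ hx0)⟩

theorem exists_scale_O2 (hw : IsAL (q * M) q M w) (x : F0 A (q * M)) (hx : x ≠ 0) :
    ∃ c : K0 A, c ≠ 0 ∧ ∃ y : O2 A w, red2 hqM A hA hw y ≠ 0 ∧
      x = algebraMap (K0 A) (F0 A (q * M)) c * ((y : O2 A w) : F0 A (q * M)) := by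
  have hq := hqF.out
  have B1 := isBranch_inf A hq hA (q * M)
  have B3 := isBranch_zero A hq hA (N := q * M) rfl hw
  set Q : FB (q * M) := qF (q * M) q with hQ
  have hQ0 : Q ≠ 0 := B1.ne
  have hQfix : IsFix A (q * M) Q := isFix_qF _ q
  set X : FB (q * M) := (x : FB (q * M)) with hX
  have hX0 : X ≠ 0 := fun h => hx (Subtype.ext h)
  have hXfix : IsFix A (q * M) X := mem_F0.1 x.2
  have v1Q : vB A (eInf (q * M)) Q Q = 1 := B1.vB_unif
  have v3Q : vB A (eZero w) Q Q = 1 := B3.vB_unif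
  set a1 := vB A (eInf (q * M)) Q X with ha1
  set a3 := vB A (eZero w) Q X with ha3
  set n : ℤ := min a1 a3 with hn
  have hfixk : ∀ k : ℤ, IsFix A (q * M) (Q ^ k) := fun k =>
    mem_F0.1 ((F0 A (q * M)).zpow_mem (mem_F0.2 hQfix) k)
  have hk0 : ∀ k : ℤ, Q ^ k ≠ 0 := fun k => zpow_ne_zero k hQ0
  have w1 : ∀ k : ℤ, vB A (eInf (q * M)) Q (Q ^ k * X) = k + a1 := fun k => by
    rw [B1.vB_mul (hk0 k) (hfixk k) hX0 hXfix, RG3_vB_zpow A B1 hQ0 hQfix, v1Q, mul_one]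
  have w3 : ∀ k : ℤ, vB A (eZero w) Q (Q ^ k * X) = k + a3 := fun k => by
    rw [B3.vB_mul (hk0 k) (hfixk k) hX0 hXfix, RG3_vB_zpow A B3 hQ0 hQfix, v3Q, mul_one]
  have hmem : ∀ k : ℤ, ((qF0 A (q * M) q) ^ k * x ∈ O2 A w) ↔ (0 ≤ k + a1 ∧ 0 ≤ k + a3) := by
    intro k
    have hc : (((qF0 A (q * M) q) ^ k * x : F0 A (q * M)) : FB (q * M)) = Q ^ k * X := by
      push_cast
      rfl
    have hne : Q ^ k * X ≠ 0 := mul_ne_zero (hk0 k) hX0
    have hfx : IsFix A (q * M) (Q ^ k * X) := by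
      rw [← hc]
      exact mem_F0.1 (Subtype.property _)
    rw [mem_O2_iff, hc, RG3_mem_iff A B1 hne hfx, RG3_mem_iff A B3 hne hfx, w1 k, w3 k]
  have hn1 : n ≤ a1 := min_le_left _ _
  have hn3 : n ≤ a3 := min_le_right _ _
  have hy : (qF0 A (q * M) q) ^ (-n) * x ∈ O2 A w := by
    rw [hmem]
    exact ⟨by omega, by omega⟩
  have hq0 : qF0 A (q * M) q ≠ 0 := fun h => hQ0 (congrArg Subtype.val h)
  have hqK : ((q : ℕ) : K0 A) ≠ 0 := by exact_mod_cast hq.ne_zero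
  refine ⟨((q : ℕ) : K0 A) ^ n, zpow_ne_zero _ hqK, ⟨_, hy⟩, ?_, ?_⟩
  · rw [Ne, red2_eq_zero_iff]
    intro hcon
    have e1 : (qF0 A (q * M) q) ^ (-n) * x * (qF0 A (q * M) q)⁻¹
        = (qF0 A (q * M) q) ^ (-(n + 1)) * x := by
      rw [neg_add, zpow_add₀ hq0, zpow_neg_one]
      ring
    have hcon' : (qF0 A (q * M) q) ^ (-(n + 1)) * x ∈ O2 A w := by
      rw [← e1]; exact hcon
    rw [hmem] at hcon'
    obtain ⟨c1, c3⟩ := hcon'
    have : n + 1 ≤ n := by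
      rw [hn]
      exact le_min (by omega) (by omega)
    omega
  · have e2 : algebraMap (K0 A) (F0 A (q * M)) (((q : ℕ) : K0 A) ^ n)
        = (qF0 A (q * M) q) ^ n := by
      rw [map_zpow₀, map_natCast, PHI_qF0_eq]
    rw [e2]
    show x = (qF0 A (q * M) q) ^ n * ((qF0 A (q * M) q) ^ (-n) * x)
    rw [← mul_assoc, ← zpow_add₀ hq0, add_neg_cancel, zpow_zero, one_mul]

/-- no defect -/
theorem exists_orth_O2 (hw : IsAL (q * M) q M w) (U : Submodule (K0 A) (F0 A (q * M)))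
    (hU : FiniteDimensional (K0 A) U) :
    ∃ b : Fin (Module.finrank (K0 A) U) → O2 A w,
      (∀ t, ((b t : O2 A w) : F0 A (q * M)) ∈ U) ∧
      LinearIndependent (kk A) (fun t => red2 hqM A hA hw (b t)) := by
  classical
  have hq : q.Prime := hqF.out
  have hB₁ := isBranch_inf A hq hA (q * M)
  have hB₃ := isBranch_zero A hq hA (N := q * M) rfl hw
  have := isDiscreteValuationRing_A0 A hq hA
  obtain ⟨c, hc, hcO⟩ := LM_coords A hq hA U
  have hπ : (((q : ℕ) : A0 A)) ≠ 0 := by exact_mod_cast hq.ne_zero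
  have hπc : algebraMap (K0 A) (F0 A (q * M)) ((((q : ℕ) : A0 A) : A0 A) : K0 A) =
      qF0 A (q * M) q := by
    rw [PHI_qF0_eq]
    simp
  have hsc : ∀ x ∈ U, ∃ n : ℕ, algebraMap (K0 A) (F0 A (q * M))
      (((((q : ℕ) : A0 A) : A0 A) : K0 A) ^ n) * x ∈ O2 A w := by
    intro x _
    obtain ⟨n₁, h₁⟩ := ORTH_exists_pow A hA hB₁ (x : FB (q * M)) x.2
    obtain ⟨n₃, h₃⟩ := ORTH_exists_pow A hA hB₃ (x : FB (q * M)) x.2
    refine ⟨max n₁ n₃, ?_⟩
    rw [map_pow, hπc, mem_O2_iff]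
    exact ⟨h₁ _ (le_max_left _ _), h₃ _ (le_max_right _ _)⟩
  obtain ⟨b, hbU, hdiv⟩ := abs_exists_orth (A0 A) ((q : ℕ) : A0 A) hπ (O2 A w)
    (const_mem_O2 A w) U hsc c (fun u _ => hc u)
    (fun x hx hxO => hcO x hx ((mem_O2_iff A x).1 hxO).1)
  refine ⟨b, hbU, ?_⟩
  rw [Fintype.linearIndependent_iff]
  intro g hg t
  choose a' ha' using fun t => resK0_surjective A hq hA (g t)
  have h1 : red2 hqM A hA hw
      (∑ t, (⟨_, const_mem_O2 A w (a' t)⟩ : O2 A w) * b t) = 0 := by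
    rw [map_sum, ← hg]
    refine Finset.sum_congr rfl fun t _ => ?_
    rw [map_mul, red2_algebraMap, ha', Algebra.smul_def]
  rw [red2_eq_zero_iff] at h1
  have e1 : ((∑ t, (⟨_, const_mem_O2 A w (a' t)⟩ : O2 A w) * b t : O2 A w) : F0 A (q * M)) =
      ∑ t, algebraMap (K0 A) (F0 A (q * M)) ((a' t : A0 A) : K0 A) *
        ((b t : O2 A w) : F0 A (q * M)) := by
    rw [AddSubmonoidClass.coe_finsetSum]
    rfl
  rw [e1, ← hπc] at h1
  rw [← ha' t, resK0_eq_zero_iff A hq hA]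
  exact hdiv a' h1 t

/-! ## surjectivity -/

theorem RX_dvdM (M q : ℕ) : M ∣ q * M := dvd_mul_left _ _

/-- `w ∘ π₁^* = V_q` -/
theorem RX_w_aHom (hw : IsAL (q * M) q M w) (x : FB M) :
    ((w (aHom (RX_dvdM M q) x) : FB (q * M)) : LaurentSeries Qb) =
      qExpand Qb q (x : LaurentSeries Qb) := by
  have hb : M * q ∣ q * M := by rw [mul_comm]
  have h := ALC_ext ((w : FB (q * M) →ₐ[Qb] FB (q * M)).comp (aHom (RX_dvdM M q))) (bHom q hb)
    (by
      intro k hk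
      show ((w (aHom (RX_dvdM M q) _) : FB (q * M)) : LaurentSeries Qb) = _
      rw [coe_bHom, Wq_qExpand_J,
        ALC_gen hw _ 1 k (one_dvd _) hk (by rw [coe_aHom, one_mul]), Nat.div_one, mul_comm]) x
  have h2 := congrArg (Subtype.val) h
  rw [← coe_bHom q hb x]
  exact h2

/-- the involution `w` on `O₀` -/
theorem RX_w_mem (hw : IsAL (q * M) q M w) (x : O2 A w) :
    (⟨w ((x : F0 A (q * M)) : FB (q * M)), (mem_F0.1 (x : F0 A (q * M)).2).al hw⟩ :
      F0 A (q * M)) ∈ O2 A w := by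
  rw [mem_O2_iff]
  refine ⟨((mem_O2_iff A _).1 x.2).2, ?_⟩
  show eZero w (w ((x : F0 A (q * M)) : FB (q * M))) ∈ gRing A
  rw [eZero_apply, hw.invol]
  exact ((mem_O2_iff A _).1 x.2).1

/-- `w` as a map `O₀ → O₀` -/
def wO2 (hw : IsAL (q * M) q M w) (x : O2 A w) : O2 A w := ⟨_, RX_w_mem A hw x⟩

theorem red2_wO2 (hw : IsAL (q * M) q M w) (x : O2 A w) :
    red2 hqM A hA hw (wO2 A hw x) = (red2 hqM A hA hw x).swap := by
  refine Prod.ext (Subtype.ext ?_) (Subtype.ext ?_)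
  · rw [coe_red2_fst, Prod.fst_swap, coe_red2_snd]
    rfl
  · rw [coe_red2_snd, Prod.snd_swap, coe_red2_fst]
    congr 1
    apply Subtype.ext
    show eZero w (w ((x : F0 A (q * M)) : FB (q * M))) = _
    rw [eZero_apply, hw.invol]
    rfl

/-- pull-back from level `M` -/
def RX_up (A : ValuationSubring Qb) (M q : ℕ) [NeZero M] [NeZero q] (x : FB M)
    (hfix : IsFix A M x) : F0 A (q * M) := ⟨aHom (RX_dvdM M q) x, hfix.aHom _⟩

theorem coe_RX_up (x : FB M) (hfix : IsFix A M x) :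
    ((RX_up A M q x hfix : F0 A (q * M)) : FB (q * M)) = aHom (RX_dvdM M q) x := rfl

theorem RX_up_mem (hw : IsAL (q * M) q M w) (x : FB M) (hfix : IsFix A M x)
    (hxg : (x : LaurentSeries Qb) ∈ gRing A) : RX_up A M q x hfix ∈ O2 A w := by
  rw [mem_O2_iff, coe_RX_up, eInf_apply, coe_aHom, eZero_apply, RX_w_aHom hw]
  exact ⟨hxg, qExpand_mem_gRing A q hxg⟩

theorem red2_RX_up (hw : IsAL (q * M) q M w) (x : FB M) (hfix : IsFix A M x)
    (hxg : (x : LaurentSeries Qb) ∈ gRing A) :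
    (((red2 hqM A hA hw ⟨_, RX_up_mem A hw x hfix hxg⟩).1 : FT A M) : LaurentSeries (kk A)) =
      gRed A ⟨_, hxg⟩ := by
  rw [coe_red2_fst]
  refine INT2_gRed_congr A _ _ ?_
  rw [coe_RX_up, eInf_apply, coe_aHom]

/-- lifts from level `M` -/
theorem RX_exists_fst (hw : IsAL (q * M) q M w) (u : FT A M) :
    ∃ x : O2 A w, (red2 hqM A hA hw x).1 = u := by
  obtain ⟨x, hfix, hx⟩ := exists_fix_lift A M hqM hA u
  have hxg : ((x : FB M) : LaurentSeries Qb) ∈ gRing A := (mem_OC_iff M hqM A hA _).1 x.2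
  refine ⟨⟨_, RX_up_mem A hw (x : FB M) hfix hxg⟩, Subtype.ext ?_⟩
  rw [red2_RX_up hqM A hA hw (x : FB M) hfix hxg, ← hx, coe_redC]
  refine congrArg (gRed A) (Subtype.ext ?_)
  rw [coe_OCtoG]

theorem RX_exists_snd (hw : IsAL (q * M) q M w) (u : FT A M) :
    ∃ x : O2 A w, (red2 hqM A hA hw x).2 = u := by
  obtain ⟨x, hx⟩ := RX_exists_fst hqM A hA hw u
  exact ⟨wO2 A hw x, by rw [red2_wO2, Prod.snd_swap, hx]⟩

theorem RX_e_ne (A : ValuationSubring Qb) (M q : ℕ) [NeZero M] [hqF : Fact q.Prime] :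
    jT A M - jT A M ^ (q ^ 2) ≠ 0 := by
  intro h
  have h2 : (1 : ℕ) < q ^ 2 := Nat.one_lt_pow (by norm_num) hqF.out.one_lt
  refine transcendental_jT A M ⟨X - X ^ (q ^ 2), ?_, by simpa using h⟩
  intro h0
  have := congrArg (fun p : (kk A)[X] => p.coeff 1) h0
  simp only [coeff_sub, coeff_X_one, coeff_X_pow, coeff_zero] at this
  rw [if_neg (by omega)] at this
  simp at this

include hqM hA in
/-- `j` as an element of `O₀` -/
theorem RX_j_mem (hw : IsAL (q * M) q M w) : xF02 A M q ∈ O2 A w :=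
  Subring.mem_inf.2 ⟨(c2_hx₁ hqM A hA).choose, (c2_hx₃ hqM A hA hw).choose⟩

theorem red2_j (hw : IsAL (q * M) q M w) :
    red2 hqM A hA hw ⟨_, RX_j_mem hqM A hA hw⟩ = (jT A M, jT A M ^ q) :=
  Prod.ext (c2_hx₁ hqM A hA).choose_spec (c2_hx₃ hqM A hA hw).choose_spec

/-- the separator -/
theorem RX_exists_sep (hw : IsAL (q * M) q M w) :
    ∃ E : O2 A w, red2 hqM A hA hw E = (0, jT A M - jT A M ^ (q ^ 2)) := by
  refine ⟨wO2 A hw ⟨_, RX_j_mem hqM A hA hw⟩ - ⟨_, RX_j_mem hqM A hA hw⟩ ^ q, ?_⟩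
  rw [map_sub, map_pow, red2_wO2, red2_j]
  refine Prod.ext ?_ ?_
  · simp
  · simp [← pow_mul, sq]

theorem red2_surjective (hw : IsAL (q * M) q M w) :
    Function.Surjective (red2 hqM A hA hw) := by
  rintro ⟨a, b⟩
  obtain ⟨E, hE⟩ := RX_exists_sep hqM A hA hw
  have he := RX_e_ne A M q
  obtain ⟨xa, hxa⟩ := RX_exists_fst hqM A hA hw (a / (jT A M - jT A M ^ (q ^ 2)))
  obtain ⟨xb, hxb⟩ := RX_exists_snd hqM A hA hw (b / (jT A M - jT A M ^ (q ^ 2)))
  refine ⟨xa * wO2 A hw E + xb * E, ?_⟩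
  rw [map_add, map_mul, map_mul, red2_wO2, hE]
  refine Prod.ext ?_ ?_
  · simp only [Prod.fst_add, Prod.fst_mul, Prod.fst_swap, hxa, mul_zero, add_zero]
    exact div_mul_cancel₀ _ he
  · simp only [Prod.snd_add, Prod.snd_mul, Prod.snd_swap, hxb, mul_zero, zero_add]
    exact div_mul_cancel₀ _ he

/-- **(RX0)** the joint reduction datum over `K0 A` at level `q * M` -/
def RX0 (hw : IsAL (q * M) q M w) :
    RedG (A0 A) (resK0 A) (F0 A (q * M)) (FT A M × FT A M) where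
  O := O2 A w
  red := red2 hqM A hA hw
  red_surjective := red2_surjective hqM A hA hw
  isUnit_of_red := isUnit_of_red2 hqM A hA hw
  algebraMap_mem_iff := algebraMap_mem_O2_iff A w
  red_algebraMap := red2_algebraMap hqM A hA hw
  exists_scale := exists_scale_O2 hqM A hA hw
  exists_orth := exists_orth_O2 hqM A hA hw

theorem RX0_O (hw : IsAL (q * M) q M w) : (RX0 hqM A hA hw).O = O2 A w := rfl

theorem RX0_red (hw : IsAL (q * M) q M w) : (RX0 hqM A hA hw).red = red2 hqM A hA hw := rfl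

theorem mem_RX0_iff (hw : IsAL (q * M) q M w) (x : F0 A (q * M)) :
    x ∈ (RX0 hqM A hA hw).O ↔
      eInf (q * M) (x : FB (q * M)) ∈ gRing A ∧ eZero w (x : FB (q * M)) ∈ gRing A :=
  mem_O2_iff A x

/-- the kernel of the reduction is generated by `q` -/
theorem RX0_red_eq_zero_iff (hw : IsAL (q * M) q M w) (x : (RX0 hqM A hA hw).O) :
    (RX0 hqM A hA hw).red x = 0 ↔
      (x : F0 A (q * M)) * (qF0 A (q * M) q)⁻¹ ∈ (RX0 hqM A hA hw).O :=
  red2_eq_zero_iff hqM A hA hw x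

/-- the components of `RX0.red` are the reductions of the two `DVal`s -/
theorem RX0_red_fst (hw : IsAL (q * M) q M w) (x : (RX0 hqM A hA hw).O) :
    ((RX0 hqM A hA hw).red x).1 = (vInf2 hqM A hA).red ⟨(x : F0 A (q * M)), x.2.1⟩ := rfl

theorem RX0_red_snd (hw : IsAL (q * M) q M w) (x : (RX0 hqM A hA hw).O) :
    ((RX0 hqM A hA hw).red x).2 = (vZero2 hqM A hA hw).red ⟨(x : F0 A (q * M)), x.2.2⟩ := rfl

/-! ## compatibility with a joint reduction datum over `Qb` -/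

/-- `O₀ = F₀ ∩ R.O` -/
theorem RX0_mem_iff_R (R : RedG A (IsLocalRing.residue A) (FB (q * M)) (FT A M × FT A M))
    (hR : IsQRed2 M q hqM A R) (x : F0 A (q * M)) :
    x ∈ (RX0 hqM A hA (EH_isAL_wq M q hqM)).O ↔ (x : FB (q * M)) ∈ R.O := by
  rw [mem_RX0_iff, hR.mem_iff]
  rfl

/-- same reduction -/
theorem RX0_red_eq_R (R : RedG A (IsLocalRing.residue A) (FB (q * M)) (FT A M × FT A M))
    (hR : IsQRed2 M q hqM A R) (x : (RX0 hqM A hA (EH_isAL_wq M q hqM)).O)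
    (h : ((x : F0 A (q * M)) : FB (q * M)) ∈ R.O) :
    R.red ⟨_, h⟩ = (RX0 hqM A hA (EH_isAL_wq M q hqM)).red x := by
  have hx := (mem_RX0_iff hqM A hA _ _).1 x.2
  refine Prod.ext (Subtype.ext ?_) (Subtype.ext ?_)
  · rw [hR.red_fst ⟨_, h⟩ hx.1]
    rfl
  · rw [hR.red_snd ⟨_, h⟩ hx.2]
    rfl

end

end Fermat.Agent.S40Lib
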