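import Fermat.Agent.S40.BLX.Defs
import Fermat.Agent.S36.Mod.EtaTable
import Fermat.Agent.S36.Mod.EtaL

/-!
# S40, block (BL_X): the modular unit `u = Δ(q τ) / Δ(τ)` at level `q * M`
-/

set_option autoImplicit false
set_option synthInstance.maxHeartbeats 400000
set_option linter.unusedSectionVars false
set_option linter.unusedVariables false

open AlgebraicCurve ModularCurve Polynomial

namespace Fermat.Agent.S40Lib

open Fermat.Agent.S18Lib Fermat.Agent.S24Lib Fermat.Agent.S28Lib Fermat.Agent.ESLib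
  Fermat.Agent.S34Lib Fermat.Agent.FFLib Fermat.Agent.S36Lib

noncomputable section

variable (M q : ℕ) [NeZero M] [NeZero q]

/-- `u = Δ(q τ) / Δ(τ)` at level `q * M` -/
def etU : FB (q * M) := etaF (q * M) q 1 (dvd_mul_right _ _) (one_dvd _)

theorem coe_etU : ((etU M q : FB (q * M)) : LaurentSeries Qb) = phiL Qb q := by
  rw [phiL_eq_DD]
  rfl

theorem etU_ne_zero : etU M q ≠ 0 := etaF_ne_zero _ _ _ _ _

theorem isFix_etU (A : ValuationSubring Qb) : IsFix A (q * M) (etU M q) := isFix_etaF A _ _ _ _ _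

/-- `u` is a unit off the cusps -/
theorem etU_ord (v : Place Qb (FB (q * M))) (hv : 0 ≤ v.ord (JF (q * M) 1 (one_dvd _))) :
    v.ord (etU M q) = 0 := etaF_ord _ _ _ _ _ v hv

/-- `u⁻¹ ∈ L((q-1) (j)_∞)` -/
theorem etU_inv_mem_L : (etU M q)⁻¹ ∈
    riemannRochSpace ((q - 1) • poleDiv Qb (JF (q * M) 1 (one_dvd _))) := by
  rw [etU, etaF_inv]
  exact etaF_one_mem_L (q * M) q (dvd_mul_right _ _)

/-- `u^q ∈ L((q-1) (j)_∞)` -/
theorem etU_pow_mem_L : etU M q ^ q ∈
    riemannRochSpace ((q - 1) • poleDiv Qb (JF (q * M) 1 (one_dvd _))) :=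
  etaF_pow_mem_L (q * M) q (dvd_mul_right _ _)

variable {M q}

theorem IsAL.apply_etU (hq : q.Prime) (hqM : ¬ q ∣ M) {w : FB (q * M) ≃ₐ[Qb] FB (q * M)}
    (hw : IsAL (q * M) q M w) : w (etU M q) = qF (q * M) q ^ (-12 : ℤ) * (etU M q)⁻¹ := by
  have hc : Nat.Coprime q M := (Nat.Prime.coprime_iff_not_dvd hq).2 hqM
  have hq0 : (q : Qb) ≠ 0 := by exact_mod_cast hq.ne_zero
  have d1 : q / q = 1 := Nat.div_self hq.pos
  have d2 : q / 1 = q := Nat.div_one _
  have hqN : q ∣ q * M := dvd_mul_right _ _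
  have h := hw.apply_etaF rfl hc (d₁ := q) (e₁ := 1) (d₂ := 1) (e₂ := 1) dvd_rfl (one_dvd _)
    (one_dvd _) (one_dvd _) (by rw [mul_one]; exact hqN) (by simp)
    (by rw [d1]; simp) (by rw [d2, mul_one]; exact hqN)
  rw [etU, etaF_inv, ET_qF_zpow,
    etaF_congr _ _ (by rw [mul_one]; exact hqN) (by simp) (mul_one q).symm (mul_one 1).symm, h]
  congr 1
  · congr 1
    rw [d1, d2]
    push_cast
    field_simp
  · exact etaF_congr _ _ _ _ (by rw [d1, mul_one]) (by rw [d2, mul_one])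

variable (A : ValuationSubring Qb)

/-- `u` on the branch at `∞` -/
theorem etU_inf : Ge A (eInf (q * M)) (qF (q * M) q) 0 (etU M q) ∧
    rd A (eInf (q * M)) (qF (q * M) q) 0 (etU M q) = phiL (kk A) q := by
  refine ET_core (y := phiL Qb q) ?_ (isGU_phiL A q).1 (gRed_phiL A q _)
  rw [neg_zero, zpow_zero, one_mul, eInf_apply, coe_etU]

/-- `u` on the branch at `0` -/
theorem etU_zero (hq : q.Prime) (hqM : ¬ q ∣ M) {w : FB (q * M) ≃ₐ[Qb] FB (q * M)}
    (hw : IsAL (q * M) q M w) :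
    Ge A (eZero w) (qF (q * M) q) (-12) (etU M q) ∧
    rd A (eZero w) (qF (q * M) q) (-12) (etU M q) = (phiL (kk A) q)⁻¹ := by
  refine ET_core (y := (phiL Qb q)⁻¹) ?_ (isGU_phiL A q).inv.1 (gRed_phiL_inv A q _)
  have h0 := ET_qF_ne_zero (q * M) hq.ne_zero
  have h1 : w (qF (q * M) q ^ (-(-12 : ℤ)) * etU M q) = (etU M q)⁻¹ := by
    have hwq : w (qF (q * M) q) = qF (q * M) q := w.commutes _
    rw [map_mul, IsAL.apply_etU hq hqM hw, map_zpow₀, hwq, ← mul_assoc, ← zpow_add₀ h0]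
    simp
  rw [eZero_apply, h1]
  show ((etU M q : FB (q * M)) : LaurentSeries Qb)⁻¹ = _
  rw [coe_etU]

end

end Fermat.Agent.S40Lib
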